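import Fermat.Agent.LT.T3.R.Spec
import Fermat.Agent.LT.T3.M.H709.PureRegM

/-!
# Row LT, tower T3, station T3.18R, leaf R.3 `PureRegRC` (helper709)

OFF-MAIN.  `pureRegRC709 (K) : Fermat.Agent.LT.T3.R.PureRegRC K`: the pure tensor at the real
places `⊗_{v ∈ P} f₀_v ⊗ ⊗_w F_w ⊗ 1_{U^{S'}}` (`F_w` a test function of weight `n w` on
`GL₂(ℝ)`) is continuous, of compact support, smooth at infinity, bi-invariant under `U(𝔫)` of
type `typeR n` under `K_∞`, and supported at `S' = P ∪ S_∞`.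

Vocabulary: `LT/T3/R/Spec.lean` (sha256 a528b35a) of helper14, byte-identical copy.  Port of
`LT/T3/M/H709/PureRegM.lean` (leaf M.3, imported as it is: the subgroup `OutsideUM`, the common
denominator at `P`) with `GL₂(ℝ)` in place of `GL₂(ℂ)` at the infinite places.
-/

set_option autoImplicit false
set_option linter.style.haveILetI false

open IsDedekindDomain NumberField MeasureTheory
open Fermat.Agent.LT.H556.A0
open scoped RestrictedProduct

noncomputable section

namespace Fermat.Agent.LT.T3.R.H709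

open Fermat.Agent.LT.T3 Fermat.Agent.LT.T3.H245 Fermat.Agent.LT.T3.M
  Fermat.Agent.LT.T3.M.H709

variable {K : Type} [Field K] [NumberField K]

/-! ## The real components -/

theorem continuous_reHom709 (w : InfinitePlace K) (hw : w.IsReal) :
    Continuous (reHom K w hw) := by
  have h : Continuous (fun x : InfiniteAdeleRing K × FiniteAdeleRing (𝓞 K) K =>
      InfinitePlace.Completion.extensionEmbeddingOfIsReal hw (x.1 w)) :=
    (InfinitePlace.Completion.isometry_extensionEmbeddingOfIsReal hw).continuous.comp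
      ((continuous_apply w).comp continuous_fst)
  exact h

theorem continuous_reGL709 (w : InfinitePlace K) (hw : w.IsReal) :
    Continuous (reGL K w hw) := by
  refine Continuous.units_map _ ?_
  exact Continuous.matrix_map continuous_id (continuous_reHom709 w hw)

theorem reGL_eq_one709 {w : InfinitePlace K} (hw : w.IsReal) {g : G K} (h : TrivAtInf w g) :
    reGL K w hw g = 1 := by
  apply Units.ext
  refine Matrix.ext fun i j => ?_
  show InfinitePlace.Completion.extensionEmbeddingOfIsReal hw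
    (((g : Matrix (Fin 2) (Fin 2) (Adl K)) i j).1 w) = (1 : Matrix (Fin 2) (Fin 2) ℝ) i j
  rw [h i j, Matrix.one_apply, Matrix.one_apply]
  split_ifs
  · exact map_one _
  · exact map_zero _

theorem norm_infGL_eq709 (w : InfinitePlace K) (hw : w.IsReal) (g : G K) (i j : Fin 2) :
    ‖((AS.infGL K w g : GL (Fin 2) ℂ) : Matrix (Fin 2) (Fin 2) ℂ) i j‖
      = ‖((reGL K w hw g : GL (Fin 2) ℝ) : Matrix (Fin 2) (Fin 2) ℝ) i j‖ := by
  rw [AS.infGL_coe, infComp_eq_reGL K w hw, Complex.norm_real]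

/-- The component at `w` of an element of the compact group at `w` is a rotation. -/
theorem inSO2_reGL709 {w : InfinitePlace K} (hw : w.IsReal) {k : G K}
    (hk : IsArchCompact w k) : T6.InSO2 (reGL K w hw k) := by
  have hM : infComp w k
      = (((reGL K w hw k : GL (Fin 2) ℝ) : Matrix (Fin 2) (Fin 2) ℝ)).map
          (algebraMap ℝ ℂ) := by
    refine Matrix.ext fun i j => ?_
    rw [infComp_eq_reGL K w hw, Matrix.map_apply]
    rfl
  have h1 := hk.2.1
  have h2 := hk.2.2 hw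
  rw [hM] at h1 h2
  set M : Matrix (Fin 2) (Fin 2) ℝ := ((reGL K w hw k : GL (Fin 2) ℝ) :
    Matrix (Fin 2) (Fin 2) ℝ) with hMdef
  have hinj : Function.Injective (algebraMap ℝ ℂ) := (algebraMap ℝ ℂ).injective
  have hct : (M.map (algebraMap ℝ ℂ)).conjTranspose = (M.transpose).map (algebraMap ℝ ℂ) := by
    refine Matrix.ext fun i j => ?_
    rw [Matrix.conjTranspose_apply, Matrix.map_apply, Matrix.map_apply, Matrix.transpose_apply]
    exact Complex.conj_ofReal _
  refine ⟨?_, ?_⟩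
  · rw [hct, ← Matrix.map_mul] at h1
    have h1' : (M * M.transpose).map (algebraMap ℝ ℂ)
        = (1 : Matrix (Fin 2) (Fin 2) ℝ).map (algebraMap ℝ ℂ) := by
      rw [h1, Matrix.map_one _ (map_zero _) (map_one _)]
    exact Matrix.map_injective hinj h1'
  · have h2' : (algebraMap ℝ ℂ) M.det = (algebraMap ℝ ℂ) 1 := by
      rw [map_one, ← h2]
      exact (RingHom.map_det (algebraMap ℝ ℂ) M)
    exact hinj h2'

theorem wtChar_one709 (n : ℤ) : T6.wtChar n (1 : GL (Fin 2) ℝ) = 1 := by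
  have h : T6.holPart (1 : GL (Fin 2) ℝ) = 1 := by
    unfold T6.holPart
    simp
  unfold T6.wtChar
  rw [h, one_zpow]

/-- The type of an element of the compact group at `w`. -/
theorem typeR_arch709 (hR : ∀ w : InfinitePlace K, w.IsReal) (n : InfinitePlace K → ℤ)
    {w : InfinitePlace K} {k : G K} (hk : IsArchCompact w k) :
    typeR K hR n k = T6.wtChar (n w) (reGL K w (hR w) k) := by
  unfold typeR
  refine Finset.prod_eq_single w ?_ ?_
  · intro w' _ hw'
    rw [reGL_eq_one709 (hR w') (hk.1.1 w' hw'), wtChar_one709]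
  · intro h
    exact absurd (Finset.mem_univ w) h

/-! ## The pure tensor -/

section Pure

variable {hR : ∀ w : InfinitePlace K, w.IsReal} {𝔫 : Ideal (𝓞 K)}
  {P : Finset (HeightOneSpectrum (𝓞 K))}
  {f₀ : ∀ v : HeightOneSpectrum (𝓞 K), GL (Fin 2) (v.adicCompletion K) → ℂ}
  {F : InfinitePlace K → GL (Fin 2) ℝ → ℂ}

theorem pureFnR_smul709 {h h' : G K} {c : ℂ}
    (h1 : OutsideUM K 𝔫 P h ↔ OutsideUM K 𝔫 P h')
    (h2 : ∀ v ∈ P, f₀ v (AS.finGL K v h) = f₀ v (AS.finGL K v h'))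
    (h3 : ∏ w : InfinitePlace K, F w (reGL K w (hR w) h)
      = c * ∏ w : InfinitePlace K, F w (reGL K w (hR w) h')) :
    pureFnR K hR 𝔫 P f₀ F h = c * pureFnR K hR 𝔫 P f₀ F h' := by
  unfold pureFnR
  by_cases hh : OutsideUM K 𝔫 P h
  · rw [if_pos hh, if_pos (h1.1 hh), Finset.prod_congr rfl h2, h3]
    ring
  · rw [if_neg hh, if_neg (fun H => hh (h1.2 H)), mul_zero]

theorem pureFnR_congr709 {h h' : G K}
    (h1 : OutsideUM K 𝔫 P h ↔ OutsideUM K 𝔫 P h')
    (h2 : ∀ v ∈ P, f₀ v (AS.finGL K v h) = f₀ v (AS.finGL K v h'))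
    (h3 : ∀ w, F w (reGL K w (hR w) h) = F w (reGL K w (hR w) h')) :
    pureFnR K hR 𝔫 P f₀ F h = pureFnR K hR 𝔫 P f₀ F h' := by
  have := pureFnR_smul709 (hR := hR) (F := F) (c := 1) h1 h2
    (by rw [one_mul]; exact Finset.prod_congr rfl fun w _ => h3 w)
  rwa [one_mul] at this

theorem outsideUM_of_pureFnR_ne_zero709 {h : G K}
    (hh : pureFnR K hR 𝔫 P f₀ F h ≠ 0) : OutsideUM K 𝔫 P h := by
  by_contra hO
  apply hh
  unfold pureFnR
  rw [if_neg hO]

/-! ## Continuity -/

theorem continuous_pureFnR709 (h𝔫 : 𝔫 ≠ ⊥)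
    (hf₀ : ∀ v ∈ P, AS.IsBiIntInv v (f₀ v)) (hF : ∀ w, Continuous (F w)) :
    Continuous (pureFnR K hR 𝔫 P f₀ F) := by
  have hφ : Continuous (fun h : G K =>
      (∏ v ∈ P, f₀ v (AS.finGL K v h))
        * ∏ w : InfinitePlace K, F w (reGL K w (hR w) h)) :=
    (continuous_finsetProd _ fun v hv =>
        (continuous_of_biIntInv245 (hf₀ v hv)).comp (continuous_finGL245 v)).mul
      (continuous_finsetProd _ fun w _ => (hF w).comp (continuous_reGL709 w (hR w)))
  unfold pureFnR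
  classical
  refine Continuous.if ?_ hφ continuous_const
  intro a ha
  rw [(isClopen_outsideUM709 h𝔫 P).frontier_eq] at ha
  exact absurd ha (Set.notMem_empty a)

/-! ## Smoothness at infinity -/

theorem triv_mem_outUM709 {h : G K} (hh : ∀ v : HeightOneSpectrum (𝓞 K), TrivAtFin v h) :
    h ∈ outUM709 𝔫 P :=
  outsideUM_iff709.2 fun v _ => by
    rw [finGL_eq_one245 (hh v)]
    exact one_mem _

theorem pureSmoothR709 (n : InfinitePlace K → ℤ) (hF : ∀ w, T6.IsArchTestR (n w) (F w)) :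
    AS.IsSmoothInf K (pureFnR K hR 𝔫 P f₀ F) := by
  intro m h hfin hinf g
  have key : ∀ c : ℂ, ContDiff ℝ ((⊤ : ℕ∞) : WithTop ℕ∞)
      (fun t => c * ∏ w : InfinitePlace K,
        F w (reGL K w (hR w) g * reGL K w (hR w) (h t))) := by
    intro c
    refine contDiff_const.mul (contDiff_prod fun w _ => ?_)
    refine (hF w).smooth m (fun t => reGL K w (hR w) (h t)) (fun i j => ?_)
      (reGL K w (hR w) g)
    have e : (fun t => ((reGL K w (hR w) (h t) : GL (Fin 2) ℝ) :
        Matrix (Fin 2) (Fin 2) ℝ) i j) = fun t => (infComp w (h t) i j).re := by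
      funext t
      rw [infComp_eq_reGL K w (hR w), Complex.ofReal_re]
    rw [e]
    exact Complex.reCLM.contDiff.comp (hinf w i j)
  by_cases hg : OutsideUM K 𝔫 P g
  · have e : (fun t => pureFnR K hR 𝔫 P f₀ F (g * h t))
        = fun t => (∏ v ∈ P, f₀ v (AS.finGL K v g))
            * ∏ w : InfinitePlace K, F w (reGL K w (hR w) g * reGL K w (hR w) (h t)) := by
      funext t
      have ho : OutsideUM K 𝔫 P (g * h t) :=
        (Subgroup.mul_mem_cancel_right (outUM709 𝔫 P) (triv_mem_outUM709 (hfin t))).2 hg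
      unfold pureFnR
      rw [if_pos ho]
      congr 1
      · refine Finset.prod_congr rfl fun v _ => ?_
        rw [map_mul, finGL_eq_one245 (hfin t v), mul_one]
      · simp only [map_mul]
    rw [e]
    exact key _
  · have e : (fun t => pureFnR K hR 𝔫 P f₀ F (g * h t)) = fun _ => 0 := by
      funext t
      have ho : ¬ OutsideUM K 𝔫 P (g * h t) := fun h' => hg
        ((Subgroup.mul_mem_cancel_right (outUM709 𝔫 P) (triv_mem_outUM709 (hfin t))).1 h')
      unfold pureFnR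
      rw [if_neg ho]
    rw [e]
    exact contDiff_const

/-! ## Bi-invariance -/

theorem prod_arch_right709 (n : InfinitePlace K → ℤ) (hF : ∀ w, T6.IsArchTestR (n w) (F w))
    {w : InfinitePlace K} {k : G K} (hk : IsArchCompact w k) (g : G K) :
    ∏ w' : InfinitePlace K, F w' (reGL K w' (hR w') (g * k))
      = (typeR K hR n k)⁻¹ * ∏ w' : InfinitePlace K, F w' (reGL K w' (hR w') g) := by
  classical
  rw [typeR_arch709 hR n hk,
    ← Finset.mul_prod_erase Finset.univ (fun w' => F w' (reGL K w' (hR w') (g * k)))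
      (Finset.mem_univ w),
    ← Finset.mul_prod_erase Finset.univ (fun w' => F w' (reGL K w' (hR w') g))
      (Finset.mem_univ w), map_mul, (hF w).right _ _ (inSO2_reGL709 (hR w) hk), mul_assoc]
  congr 2
  refine Finset.prod_congr rfl fun w' hw' => ?_
  rw [map_mul, reGL_eq_one709 (hR w') (hk.1.1 w' (Finset.ne_of_mem_erase hw')), mul_one]

theorem prod_arch_left709 (n : InfinitePlace K → ℤ) (hF : ∀ w, T6.IsArchTestR (n w) (F w))
    {w : InfinitePlace K} {k : G K} (hk : IsArchCompact w k) (g : G K) :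
    ∏ w' : InfinitePlace K, F w' (reGL K w' (hR w') (k * g))
      = (typeR K hR n k)⁻¹ * ∏ w' : InfinitePlace K, F w' (reGL K w' (hR w') g) := by
  classical
  rw [typeR_arch709 hR n hk,
    ← Finset.mul_prod_erase Finset.univ (fun w' => F w' (reGL K w' (hR w') (k * g)))
      (Finset.mem_univ w),
    ← Finset.mul_prod_erase Finset.univ (fun w' => F w' (reGL K w' (hR w') g))
      (Finset.mem_univ w), map_mul, (hF w).left _ _ (inSO2_reGL709 (hR w) hk), mul_assoc]
  congr 2
  refine Finset.prod_congr rfl fun w' hw' => ?_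
  rw [map_mul, reGL_eq_one709 (hR w') (hk.1.1 w' (Finset.ne_of_mem_erase hw')), one_mul]

theorem isBiInvariant_pureFnR709 (n : InfinitePlace K → ℤ)
    (hf₀ : ∀ v ∈ P, AS.IsBiIntInv v (f₀ v)) (hF : ∀ w, T6.IsArchTestR (n w) (F w)) :
    T5.IsBiInvariant 𝔫 (typeR K hR n) (pureFnR K hR 𝔫 P f₀ F) := by
  have hone := fun v : HeightOneSpectrum (𝓞 K) => isIntGL_one245 v
  have hlev : ∀ u : G K, InLevelGroup 𝔫 u →
      (u ∈ outUM709 𝔫 P) ∧ (∀ v, AS.IsIntGL v (AS.finGL K v u)) ∧
        ∀ w, reGL K w (hR w) u = 1 := fun u hu =>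
    ⟨level_mem_outUM709 hu,
      fun v => isIntGL_of_mem_locU245 (finGL_mem_locU_of_level245 hu v),
      fun w => reGL_eq_one709 (hR w) (hu.1 w)⟩
  refine ⟨?_, ?_, ?_, ?_⟩
  · intro u hu g
    obtain ⟨huo, hk, hinf⟩ := hlev u hu
    refine pureFnR_congr709 ?_ ?_ ?_
    · exact Subgroup.mul_mem_cancel_right _ huo
    · intro v hv
      rw [map_mul]
      have := hf₀ v hv 1 (AS.finGL K v u) (AS.finGL K v g) (hone v) (hk v)
      rwa [one_mul] at this
    · intro w
      rw [map_mul, hinf w, mul_one]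
  · intro u hu g
    obtain ⟨huo, hk, hinf⟩ := hlev u hu
    refine pureFnR_congr709 ?_ ?_ ?_
    · exact Subgroup.mul_mem_cancel_left _ huo
    · intro v hv
      rw [map_mul]
      have := hf₀ v hv (AS.finGL K v u) 1 (AS.finGL K v g) (hk v) (hone v)
      rwa [mul_one] at this
    · intro w
      rw [map_mul, hinf w, one_mul]
  · intro w k hk g
    have hko : k ∈ outUM709 𝔫 P := arch_mem_outUM709 hk.1
    refine pureFnR_smul709 ?_ ?_ (prod_arch_right709 n hF hk g)
    · exact Subgroup.mul_mem_cancel_right _ hko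
    · intro v _
      rw [map_mul, finGL_eq_one245 (hk.1.2 v), mul_one]
  · intro w k hk g
    have hko : k ∈ outUM709 𝔫 P := arch_mem_outUM709 hk.1
    refine pureFnR_smul709 ?_ ?_ (prod_arch_left709 n hF hk g)
    · exact Subgroup.mul_mem_cancel_left _ hko
    · intro v _
      rw [map_mul, finGL_eq_one245 (hk.1.2 v), one_mul]

/-! ## Compact support -/

/-- The entries of `g` and `g⁻¹` are bounded on the support of a compactly supported function
on `GL₂(ℝ)`. -/
theorem exists_arch_boundR709 {F₁ : GL (Fin 2) ℝ → ℂ} (hF : HasCompactSupport F₁) :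
    ∃ ρ : ℝ, ∀ g : GL (Fin 2) ℝ, F₁ g ≠ 0 → ∀ i j : Fin 2,
      ‖(g : Matrix (Fin 2) (Fin 2) ℝ) i j‖ ≤ ρ ∧
      ‖((g⁻¹ : GL (Fin 2) ℝ) : Matrix (Fin 2) (Fin 2) ℝ) i j‖ ≤ ρ := by
  have h1 : ∀ i j : Fin 2, ∃ c : ℝ, ∀ g ∈ tsupport F₁,
      ‖(g : Matrix (Fin 2) (Fin 2) ℝ) i j‖ ≤ c := fun i j =>
    IsCompact.exists_bound_of_continuousOn hF
      (Units.continuous_val.matrix_elem i j).continuousOn
  have h2 : ∀ i j : Fin 2, ∃ c : ℝ, ∀ g ∈ tsupport F₁,
      ‖((g⁻¹ : GL (Fin 2) ℝ) : Matrix (Fin 2) (Fin 2) ℝ) i j‖ ≤ c := fun i j =>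
    IsCompact.exists_bound_of_continuousOn hF
      ((Units.continuous_val.comp continuous_inv).matrix_elem i j).continuousOn
  choose c1 hc1 using h1
  choose c2 hc2 using h2
  obtain ⟨ρ, hρ⟩ := Finite.bddAbove_range
    (fun p : (Fin 2 × Fin 2) ⊕ (Fin 2 × Fin 2) =>
      Sum.elim (fun q : Fin 2 × Fin 2 => c1 q.1 q.2) (fun q : Fin 2 × Fin 2 => c2 q.1 q.2) p)
  refine ⟨ρ, fun g hg i j => ⟨?_, ?_⟩⟩
  · exact (hc1 i j g (subset_tsupport _ hg)).trans (hρ ⟨Sum.inl (i, j), rfl⟩)
  · exact (hc2 i j g (subset_tsupport _ hg)).trans (hρ ⟨Sum.inr (i, j), rfl⟩)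

theorem hasCompactSupport_pureFnR709
    (hRep : ∀ v ∈ P, ∃ R : Finset (GL (Fin 2) (v.adicCompletion K)), AS.IsRepSys v (f₀ v) R)
    (hF : ∀ w, HasCompactSupport (F w)) :
    HasCompactSupport (pureFnR K hR 𝔫 P f₀ F) := by
  have := Fermat.Agent.LT.H11.LC.t2Space_GL2_adeleRing_h11 K
  obtain ⟨a, ha0, ha⟩ := exists_fin_boundM709 P f₀ hRep
  have hρ' := fun w => exists_arch_boundR709 (hF w)
  choose ρ' hρ' using hρ'
  obtain ⟨ρ, hρ⟩ := Finite.bddAbove_range ρ'
  refine HasCompactSupport.intro (isCompact_boxG245 ρ a) ?_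
  intro h hh
  by_contra hne
  apply hh
  have hO : OutsideUM K 𝔫 P h := outsideUM_of_pureFnR_ne_zero709 hne
  have hval : pureFnR K hR 𝔫 P f₀ F h
      = (∏ v ∈ P, f₀ v (AS.finGL K v h))
        * ∏ w : InfinitePlace K, F w (reGL K w (hR w) h) := by
    unfold pureFnR
    rw [if_pos hO]
  rw [hval] at hne
  have hf : ∀ v ∈ P, f₀ v (AS.finGL K v h) ≠ 0 := fun v hv =>
    (Finset.prod_ne_zero_iff.1 (left_ne_zero_of_mul hne)) v hv
  have hFw : ∀ w, F w (reGL K w (hR w) h) ≠ 0 := fun w =>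
    (Finset.prod_ne_zero_iff.1 (right_ne_zero_of_mul hne)) w (Finset.mem_univ w)
  have key : ∀ g : G K,
      (∀ (w : InfinitePlace K) (i j : Fin 2),
        ‖((AS.infGL K w g : GL (Fin 2) ℂ) : Matrix (Fin 2) (Fin 2) ℂ) i j‖ ≤ ρ) →
      (∀ (v : HeightOneSpectrum (𝓞 K)) (i j : Fin 2),
        toCompl245 K v a * ((AS.finGL K v g : GL (Fin 2) (v.adicCompletion K)) :
          Matrix (Fin 2) (Fin 2) (v.adicCompletion K)) i j ∈ v.adicCompletionIntegers K) →
      (g : Matrix (Fin 2) (Fin 2) (Adl K)) ∈ boxMat245 K ρ a := by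
    intro g h1 h2 i j
    exact ⟨fun w => h1 w i j, mem_boxFin245 ha0 fun v => h2 v i j⟩
  have hloc := outsideUM_iff709.1 hO
  refine ⟨key h ?_ ?_, key h⁻¹ ?_ ?_⟩
  · intro w i j
    rw [norm_infGL_eq709 w (hR w)]
    exact ((hρ' w _ (hFw w) i j).1).trans (hρ ⟨w, rfl⟩)
  · intro v i j
    by_cases hv : v ∈ P
    · exact (ha v hv _ (hf v hv) i j).1
    · exact mul_mem (toCompl245_mem_integers K v a)
        ((isIntGL_of_mem_locU245 (hloc v hv)) i j).1
  · intro w i j
    rw [norm_infGL_eq709 w (hR w), map_inv]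
    exact ((hρ' w _ (hFw w) i j).2).trans (hρ ⟨w, rfl⟩)
  · intro v i j
    rw [map_inv]
    by_cases hv : v ∈ P
    · exact (ha v hv _ (hf v hv) i j).2
    · exact mul_mem (toCompl245_mem_integers K v a)
        ((isIntGL_of_mem_locU245 (hloc v hv)) i j).2

end Pure

/-! ## The leaf -/

/-- **T3.18R.3 = R.3 `PureRegRC`.** -/
theorem pureRegRC709 (K : Type) [Field K] [NumberField K] : PureRegRC K := by
  intro hR 𝔫 h𝔫 P _ n f₀ F hf₀ hRep hF
  exact ⟨continuous_pureFnR709 h𝔫 hf₀ (fun w => (hF w).cont),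
    hasCompactSupport_pureFnR709 hRep (fun w => (hF w).supp),
    pureSmoothR709 n hF,
    isBiInvariant_pureFnR709 n hf₀ hF,
    fun _ hh => outsideUM_of_pureFnR_ne_zero709 hh⟩

end Fermat.Agent.LT.T3.R.H709

end
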